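/-
S20 / helper39: package JA — the algebra on top of the jets.
For a free frame `F j` of `M_*(Γ₀(N))` over level one: the jets of the frame are linearly
independent (JA1), hence span when the frame has `|X N|` members; every `T`-invariant vector is
the vector of cusp values of a form of large even weight (JA2); consequently
`dim M_K = dim S_K + #cusps` for large even `K` (JA3).
-/
import Fermat.Agent.S20.Basic
import Fermat.Agent.S20.LevelOne
import Fermat.Agent.S20.LinAlg
import Fermat.Agent.S20.H39.Jet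

set_option autoImplicit false

open Filter Function Complex ModularForm CongruenceSubgroup Matrix.SpecialLinearGroup
open UpperHalfPlane hiding I
open scoped Real Topology Manifold MatrixGroups ModularForm

noncomputable section

namespace Fermat.Agent.S20.H39

open Fermat.Agent.S20

variable {N : ℕ} [NeZero N]

omit [NeZero N] in
lemma cosetFun_mcast {a b : ℤ} (e : a = b) (f : ModularForm (Γ0 N) a) (c : X N) :
    cosetFun (ModularForm.mcast e f) c = cosetFun f c := by
  subst e
  induction c using QuotientGroup.induction_on with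
  | H g => rfl

/-- Product of a level-one form with a form on `Γ₀(N)`, in a prescribed weight. -/
theorem exists_mul_of_weight {m k K : ℤ} (e : m + k = K) (r : ModularForm 𝒮ℒ m)
    (f : ModularForm (Γ0 N) k) :
    ∃ h : ModularForm (Γ0 N) K, ∀ (c : X N) (τ : ℍ), cosetFun h c τ = r τ * cosetFun f c τ := by
  exact ⟨ModularForm.mcast e ((resLO N r).mul f), fun c τ ↦ by
    rw [cosetFun_mcast, cosetFun_resLO_mul]⟩

/-- A level-one form with value `1` at `i∞`, in every even integer weight `≥ 4`. -/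
theorem exists_levelOne_one {w : ℤ} (hw : Even w) (hw4 : 4 ≤ w) :
    ∃ G : ModularForm 𝒮ℒ w, valueAtInfty (G : ℍ → ℂ) = 1 := by
  obtain ⟨t, ht⟩ := hw
  have h1 : Even w.toNat := ⟨t.toNat, by omega⟩
  have h2 : 4 ≤ w.toNat := by omega
  obtain ⟨s, hs⟩ := exists_levelOne_valueAtInfty_one h1 h2
  have e : ((w.toNat : ℕ) : ℤ) = w := Int.toNat_of_nonneg (by omega)
  exact ⟨ModularForm.mcast e s, hs⟩

section Frame

variable {J : Type*} [Fintype J] {a : J → ℤ} (F : ∀ j, ModularForm (Γ0 N) (a j))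

omit [Fintype J] in
/-- The frame multiplied by level-one forms with value `1` at `i∞`, all in one weight `K`. -/
theorem exists_frame_products (ha : ∀ j, Even (a j)) {K : ℤ} (hK : Even K)
    (hKa : ∀ j, a j + 4 ≤ K) :
    ∃ (G : ∀ j, ModularForm 𝒮ℒ (K - a j)) (H : J → ModularForm (Γ0 N) K),
      (∀ j, valueAtInfty (G j : ℍ → ℂ) = 1) ∧
      (∀ (j : J) (c : X N) (τ : ℍ), cosetFun (H j) c τ = G j τ * cosetFun (F j) c τ) ∧
      (∀ j, jetVec (H j) = jetVec (F j)) := by
  have h1 : ∀ j, ∃ G : ModularForm 𝒮ℒ (K - a j), valueAtInfty (G : ℍ → ℂ) = 1 := fun j ↦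
    exists_levelOne_one (hK.sub (ha j)) (by linarith [hKa j])
  choose G hG using h1
  have h2 : ∀ j, ∃ h : ModularForm (Γ0 N) K,
      ∀ (c : X N) (τ : ℍ), cosetFun h c τ = G j τ * cosetFun (F j) c τ := fun j ↦
    exists_mul_of_weight (by ring) (G j) (F j)
  choose H hH using h2
  refine ⟨G, H, hG, hH, fun j ↦ ?_⟩
  rw [jetVec_levelOne_mul (G j) (F j) (H j) (hH j), hG j, one_smul]

omit [NeZero N] in
lemma exists_even_weight_bound : ∃ K : ℤ, Even K ∧ ∀ j, a j + 4 ≤ K := by
  refine ⟨4 + 2 * ∑ j, |a j|, ?_, fun j ↦ ?_⟩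
  · exact Even.add (by decide) (even_two_mul _)
  · have h1 : |a j| ≤ ∑ j, |a j| :=
      Finset.single_le_sum (fun i _ ↦ abs_nonneg (a i)) (Finset.mem_univ j)
    have h2 : a j ≤ |a j| := le_abs_self _
    have h3 : 0 ≤ ∑ j, |a j| := Finset.sum_nonneg fun i _ ↦ abs_nonneg (a i)
    linarith

omit [NeZero N] in
lemma apply_of_cosetFun {k : ℤ} (h : ModularForm (Γ0 N) k) (τ : ℍ) :
    cosetFun h (QuotientGroup.mk 1 : X N) τ = h τ := by
  rw [cosetFun_one]

/-- **JA1.** The jets of a free frame are linearly independent. -/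
theorem linearIndependent_jetVec (ha : ∀ j, Even (a j))
    (hgen : ∀ (k : ℤ) (f : ModularForm (Γ0 N) k), ∃ r : ∀ j, ModularForm 𝒮ℒ (k - a j),
      ∀ τ, f τ = ∑ j, r j τ * F j τ)
    (hind : ∀ (k : ℤ) (r : ∀ j, ModularForm 𝒮ℒ (k - a j)),
      (∀ τ, ∑ j, r j τ * F j τ = 0) → ∀ j, r j = 0) :
    LinearIndependent ℂ (fun j ↦ jetVec (F j)) := by
  rw [Fintype.linearIndependent_iff]
  intro lam hlam j0
  obtain ⟨K, hK, hKa⟩ := exists_even_weight_bound (a := a)
  obtain ⟨G, H, hG, hH, hHjet⟩ := exists_frame_products F ha hK hKa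
  have hjet : jetVec (∑ j, lam j • H j) = 0 := by
    rw [jetVec_sum]
    simp only [jetVec_smul, hHjet]
    exact hlam
  obtain ⟨g, hg⟩ := exists_div_discriminant _ hjet
  obtain ⟨r, hr⟩ := hgen (K - 12) g
  have hHval : ∀ j τ, H j τ = G j τ * F j τ := fun j τ ↦ by
    have := hH j (QuotientGroup.mk 1) τ
    rwa [cosetFun_one, cosetFun_one] at this
  have hfval : ∀ τ, ∑ j, lam j * (G j τ * F j τ) = discriminant τ * g τ := fun τ ↦ by
    have := hg (QuotientGroup.mk 1) τ
    rw [cosetFun_one, cosetFun_one] at this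
    rw [← this]
    have h1 : (∑ j, lam j • H j : ModularForm (Γ0 N) K) τ = ∑ j, (lam j • H j) τ := by
      simp
    rw [h1]
    refine Finset.sum_congr rfl fun j _ ↦ ?_
    rw [show (lam j • H j) τ = lam j * H j τ from rfl, hHval]
  let R : ∀ j, ModularForm 𝒮ℒ (K - a j) := fun j ↦
    lam j • G j - CuspForm.toModularFormₗ
      (CuspForm.ofMulDiscriminant (ModularForm.mcast (by ring) (r j)))
  have hRval : ∀ j τ, R j τ = lam j * G j τ - discriminant τ * r j τ := fun j τ ↦ rfl
  have hR : ∀ τ, ∑ j, R j τ * F j τ = 0 := fun τ ↦ by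
    simp only [hRval, sub_mul, Finset.sum_sub_distrib]
    have h1 : ∑ j, lam j * G j τ * F j τ = discriminant τ * g τ := by
      rw [← hfval τ]
      exact Finset.sum_congr rfl fun j _ ↦ by ring
    have h2 : ∑ j, discriminant τ * r j τ * F j τ = discriminant τ * g τ := by
      rw [hr τ, Finset.mul_sum]
      exact Finset.sum_congr rfl fun j _ ↦ by ring
    rw [h1, h2, sub_self]
  have h0 := hind K R hR j0
  have hval : ∀ τ, lam j0 * G j0 τ = discriminant τ * r j0 τ := fun τ ↦ by
    have h1 : R j0 τ = 0 := by rw [h0]; rfl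
    rw [hRval] at h1
    exact sub_eq_zero.mp h1
  have hlim1 : Tendsto (fun τ : ℍ ↦ lam j0 * G j0 τ) atImInfty (𝓝 (lam j0 * 1)) := by
    have := (levelOne_tendsto (G j0)).const_mul (lam j0)
    rwa [hG j0] at this
  have hlim2 : Tendsto (fun τ : ℍ ↦ discriminant τ * r j0 τ) atImInfty
      (𝓝 (0 * valueAtInfty (r j0 : ℍ → ℂ))) :=
    (discriminant_isZeroAtImInfty).mul (levelOne_tendsto (r j0))
  have := tendsto_nhds_unique (hlim1.congr hval) hlim2
  simpa using this

/-- **JA1'.** If the frame has as many members as there are cosets, its jets span. -/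
theorem span_jetVec_eq_top (ha : ∀ j, Even (a j))
    (hgen : ∀ (k : ℤ) (f : ModularForm (Γ0 N) k), ∃ r : ∀ j, ModularForm 𝒮ℒ (k - a j),
      ∀ τ, f τ = ∑ j, r j τ * F j τ)
    (hind : ∀ (k : ℤ) (r : ∀ j, ModularForm 𝒮ℒ (k - a j)),
      (∀ τ, ∑ j, r j τ * F j τ = 0) → ∀ j, r j = 0)
    (hcard : Fintype.card J = Fintype.card (X N)) :
    Submodule.span ℂ (Set.range fun j ↦ jetVec (F j)) = ⊤ := by
  apply (linearIndependent_jetVec F ha hgen hind).span_eq_top_of_card_eq_finrank'
  rw [hcard, Module.finrank_fintype_fun_eq_card]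

/-- **JA2.** Every `T`-invariant vector is the vector of cusp values of a form of weight `K`,
for every even `K` with `a j + 4 ≤ K`. -/
theorem exists_limVec_eq (ha : ∀ j, Even (a j))
    (hspan : Submodule.span ℂ (Set.range fun j ↦ jetVec (F j)) = ⊤)
    {K : ℤ} (hK : Even K) (hKa : ∀ j, a j + 4 ≤ K) (v : X N → ℂ)
    (hv : v ∈ invOf N ModularGroup.T) :
    ∃ f : ModularForm (Γ0 N) K, limVec f = v := by
  obtain ⟨G, H, hG, hH, hHjet⟩ := exists_frame_products F ha hK hKa
  have hv' : v ∈ Submodule.span ℂ (Set.range fun j ↦ jetVec (F j)) := hspan ▸ Submodule.mem_top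
  obtain ⟨lam, hlam⟩ := (Submodule.mem_span_range_iff_exists_fun ℂ).mp hv'
  refine ⟨∑ j, lam j • H j, ?_⟩
  have hjet : jetVec (∑ j, lam j • H j) = v := by
    rw [jetVec_sum]
    simp only [jetVec_smul, hHjet]
    exact hlam
  funext c
  have h := sum_jetVec_T_inv_pow_zero (∑ j, lam j • H j) c
  rw [hjet] at h
  have hinv1 : ∀ c : X N, v (ModularGroup.T⁻¹ • c) = v c := fun c ↦ by
    have := hv (ModularGroup.T⁻¹ • c)
    rw [smul_inv_smul] at this
    exact this.symm
  have hinv : ∀ m : ℕ, v ((ModularGroup.T⁻¹) ^ m • c) = v c := fun m ↦ by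
    induction m with
    | zero => simp
    | succ m ih => rw [pow_succ', mul_smul, hinv1, ih]
  simp only [hinv, Finset.sum_const, Finset.card_range, nsmul_eq_mul] at h
  have hN : (N : ℂ) ≠ 0 := Nat.cast_ne_zero.mpr (NeZero.ne N)
  exact (mul_left_cancel₀ hN h).symm

/-- A generating frame forces finite-dimensionality in every weight. -/
theorem finiteDimensional_of_gen
    (hgen : ∀ (k : ℤ) (f : ModularForm (Γ0 N) k), ∃ r : ∀ j, ModularForm 𝒮ℒ (k - a j),
      ∀ τ, f τ = ∑ j, r j τ * F j τ) (K : ℤ) :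
    FiniteDimensional ℂ (ModularForm (Γ0 N) K) := by
  have hmul : ∀ (j : J) (r : ModularForm 𝒮ℒ (K - a j)), ∃ h : ModularForm (Γ0 N) K,
      ∀ τ, h τ = r τ * F j τ := fun j r ↦ by
    obtain ⟨h, hh⟩ := exists_mul_of_weight (by ring) r (F j)
    exact ⟨h, fun τ ↦ by
      have := hh (QuotientGroup.mk 1) τ
      rwa [cosetFun_one, cosetFun_one] at this⟩
  choose P hP using hmul
  let Φ : (∀ j, ModularForm 𝒮ℒ (K - a j)) →ₗ[ℂ] ModularForm (Γ0 N) K :=
    { toFun := fun r ↦ ∑ j, P j (r j)
      map_add' := fun r s ↦ by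
        ext τ
        simp [hP, add_mul, Finset.sum_add_distrib]
      map_smul' := fun c r ↦ by
        ext τ
        simp [hP, Finset.mul_sum, mul_assoc] }
  have hsurj : Function.Surjective Φ := fun f ↦ by
    obtain ⟨r, hr⟩ := hgen K f
    refine ⟨r, ?_⟩
    ext τ
    simp [Φ, hP, hr τ]
  exact Module.Finite.of_surjective Φ hsurj

end Frame

/-! ### The cusp-value map -/

/-- The vector of cusp values, as a linear map into the `T`-invariant vectors. -/
def limVecₗ (N : ℕ) [NeZero N] (K : ℤ) :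
    ModularForm (Γ0 N) K →ₗ[ℂ] invOf N ModularGroup.T where
  toFun f := ⟨limVec f, limVec_mem_invOf f⟩
  map_add' f g := by
    ext c
    simp [limVec_eq_coeffN_zero, coeffN_add]
  map_smul' a f := by
    ext c
    simp [limVec_eq_coeffN_zero, coeffN_smul]

lemma limVecₗ_apply {K : ℤ} (f : ModularForm (Γ0 N) K) :
    ((limVecₗ N K f : invOf N ModularGroup.T) : X N → ℂ) = limVec f := rfl

/-- The kernel of the cusp-value map is the space of cusp forms. -/
lemma ker_limVecₗ (K : ℤ) :
    LinearMap.ker (limVecₗ N K) = LinearMap.range (CuspForm.toModularFormₗ (Γ := Γ0 N) (k := K)) := by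
  ext f
  simp only [LinearMap.mem_ker, LinearMap.mem_range]
  constructor
  · intro h
    have h0 : limVec f = 0 := by
      have := congrArg (Subtype.val) h
      simpa [limVecₗ_apply] using this
    obtain ⟨g, hg⟩ := exists_cuspForm_of_limVec_eq_zero f h0
    exact ⟨g, by ext τ; simpa using congrFun hg τ⟩
  · rintro ⟨g, rfl⟩
    obtain ⟨f, hf, hf0⟩ := exists_modularForm_of_cuspForm g
    have : CuspForm.toModularFormₗ g = f := by
      ext τ
      simpa using (congrFun hf τ).symm
    rw [this]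
    ext c
    simp [limVecₗ_apply, hf0]

section Frame2

variable {J : Type*} [Fintype J] {a : J → ℤ} (F : ∀ j, ModularForm (Γ0 N) (a j))

/-- **JA3.** For every even `K` with `a j + 4 ≤ K`:
`dim M_K(Γ₀(N)) = dim S_K(Γ₀(N)) + #(T-orbits on X N)`. -/
theorem finrank_modularForm_eq_add (ha : ∀ j, Even (a j))
    (hgen : ∀ (k : ℤ) (f : ModularForm (Γ0 N) k), ∃ r : ∀ j, ModularForm 𝒮ℒ (k - a j),
      ∀ τ, f τ = ∑ j, r j τ * F j τ)
    (hspan : Submodule.span ℂ (Set.range fun j ↦ jetVec (F j)) = ⊤)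
    {K : ℤ} (hK : Even K) (hKa : ∀ j, a j + 4 ≤ K) :
    Module.finrank ℂ (ModularForm (Γ0 N) K) =
      Module.finrank ℂ (CuspForm (Γ0 N) K) + Nat.card (Orb N ModularGroup.T) := by
  have := finiteDimensional_of_gen F hgen K
  have hsurj : LinearMap.range (limVecₗ N K) = ⊤ := by
    rw [LinearMap.range_eq_top]
    rintro ⟨v, hv⟩
    obtain ⟨f, hf⟩ := exists_limVec_eq F ha hspan hK hKa v hv
    exact ⟨f, Subtype.ext hf⟩
  have h1 := LinearMap.finrank_range_add_finrank_ker (limVecₗ N K)
  rw [hsurj, finrank_top, finrank_invOf, ker_limVecₗ,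
    LinearMap.finrank_range_of_inj CuspForm.toModularFormₗ_injective] at h1
  omega

end Frame2

end Fermat.Agent.S20.H39
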