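/-
S20 / helper39: scalar q-expansion toolkit for functions of period `N` on the upper half plane
(Mathlib only).  Truncated expansions with a big-O remainder, uniqueness of coefficients for
plain functions, the effect of the translation `τ ↦ τ + 1` on `q_N`-coefficients, and character
orthogonality for the root of unity `exp (2 π i / N)`.
-/
import Mathlib

set_option autoImplicit false

open Filter Function Complex
open UpperHalfPlane hiding I
open scoped Real Topology Manifold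

noncomputable section

namespace Fermat.Agent.S20.H39

local notation "𝕢" => Periodic.qParam

/-- The primitive `N`-th root of unity `exp (2 π i / N)`. -/
def zetaN (N : ℕ) : ℂ := Complex.exp (2 * π * I / N)

lemma zetaN_pow (N : ℕ) [NeZero N] : zetaN N ^ N = 1 :=
  (Complex.isPrimitiveRoot_exp N (NeZero.ne N)).pow_eq_one

lemma zetaN_ne_zero (N : ℕ) : zetaN N ≠ 0 := Complex.exp_ne_zero _

lemma norm_zetaN (N : ℕ) : ‖zetaN N‖ = 1 := by
  have : (2 * π * I / N : ℂ) = ((2 * π / N : ℝ) : ℂ) * I := by push_cast; ring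
  rw [zetaN, this, Complex.norm_exp_ofReal_mul_I]

lemma zetaN_pow_ne_one (N : ℕ) [NeZero N] {i : ℕ} (hi0 : 0 < i) (hiN : i < N) :
    zetaN N ^ i ≠ 1 := by
  have hprim := Complex.isPrimitiveRoot_exp N (NeZero.ne N)
  exact hprim.pow_ne_one_of_pos_of_lt hi0.ne' hiN

/-- Character orthogonality for the powers of `zetaN N`. -/
lemma sum_zetaN_pow (N : ℕ) [NeZero N] {n r : ℕ} (hn : n < N) (hr : r < N) :
    ∑ m ∈ Finset.range N, (zetaN N ^ n) ^ m * ((zetaN N ^ r) ^ m)⁻¹ =
      if r = n then (N : ℂ) else 0 := by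
  have hprim := Complex.isPrimitiveRoot_exp N (NeZero.ne N)
  split_ifs with h
  · subst h
    have : ∀ m ∈ Finset.range N, (zetaN N ^ r) ^ m * ((zetaN N ^ r) ^ m)⁻¹ = 1 := fun m _ ↦
      mul_inv_cancel₀ (pow_ne_zero _ (pow_ne_zero _ (zetaN_ne_zero N)))
    rw [Finset.sum_congr rfl this]; simp
  · have hne : zetaN N ^ n * (zetaN N ^ r)⁻¹ ≠ 1 := by
      intro h1
      have : zetaN N ^ n = zetaN N ^ r := by
        have h2 := congrArg (· * zetaN N ^ r) h1
        simpa [mul_assoc, inv_mul_cancel₀ (pow_ne_zero r (zetaN_ne_zero N))] using h2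
      exact h (hprim.pow_inj hr hn this.symm)
    have hpow : (zetaN N ^ n * (zetaN N ^ r)⁻¹) ^ N = 1 := by
      rw [mul_pow, inv_pow, ← pow_mul, ← pow_mul, mul_comm n, mul_comm r, pow_mul, pow_mul,
        zetaN_pow]; simp
    have := geom_sum_eq hne N
    rw [hpow, sub_self, zero_div] at this
    rw [← this]
    refine Finset.sum_congr rfl fun m _ ↦ ?_
    rw [mul_pow, inv_pow]

/-- `q_N (τ + 1) = ζ_N · q_N (τ)`. -/
lemma qParam_vadd_one (N : ℕ) [NeZero N] (τ : ℍ) :
    𝕢 (N : ℝ) (((1 : ℝ) +ᵥ τ : ℍ) : ℂ) = zetaN N * 𝕢 (N : ℝ) (τ : ℂ) := by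
  have hN : (N : ℂ) ≠ 0 := Nat.cast_ne_zero.mpr (NeZero.ne N)
  rw [zetaN, Periodic.qParam, Periodic.qParam, ← Complex.exp_add]
  congr 1
  simp only [UpperHalfPlane.coe_vadd, ofReal_one, ofReal_natCast]
  field_simp

/-- Truncated `q`-expansion with a big-O remainder at `i∞`. -/
theorem expansion_bigO {u : ℍ → ℂ} {h : ℝ} (hh : 0 < h) (hper : Periodic (u ∘ ofComplex) h)
    (hol : MDiff u) (hbd : IsBoundedAtImInfty u) (M : ℕ) :
    (fun τ : ℍ ↦ u τ - ∑ n ∈ Finset.range M, (qExpansion h u).coeff n * 𝕢 h τ ^ n)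
      =O[atImInfty] (fun τ : ℍ ↦ ‖𝕢 h τ‖ ^ M) := by
  have han := analyticAt_cuspFunction_zero hh hper hol hbd
  have hsum : ∀ τ : ℍ, HasSum (fun m : ℕ ↦ (qExpansion h u).coeff m • 𝕢 h τ ^ m) (u τ) :=
    fun τ ↦ hasSum_qExpansion hh hper hol hbd τ
  have hps := (hasFPowerSeriesOnBall_cuspFunction hh han hsum).hasFPowerSeriesAt
  have hO := hps.isBigO_sub_partialSum_pow M
  have hq : Tendsto (fun τ : ℍ ↦ 𝕢 h τ) atImInfty (𝓝 0) := qParam_tendsto_atImInfty hh
  have h2 := hO.comp_tendsto hq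
  refine h2.congr_left (fun τ ↦ ?_)
  simp only [Function.comp_apply, zero_add]
  rw [eq_cuspFunction τ hh.ne' hper]
  congr 1
  simp only [FormalMultilinearSeries.partialSum]
  refine Finset.sum_congr rfl fun n _ ↦ ?_
  simp [FormalMultilinearSeries.ofScalars]

/-- Uniqueness of `q`-expansion coefficients, for plain functions on `ℍ`. -/
theorem coeff_unique {h : ℝ} (hh : 0 < h) {u : ℍ → ℂ} (hper : Periodic (u ∘ ofComplex) h)
    (hol : MDiff u) (hbd : IsBoundedAtImInfty u) {c : ℕ → ℂ}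
    (hc : ∀ τ : ℍ, HasSum (fun m ↦ c m • 𝕢 h τ ^ m) (u τ)) (m : ℕ) :
    c m = (qExpansion h u).coeff m := by
  have han := analyticAt_cuspFunction_zero hh hper hol hbd
  have h1 := (hasFPowerSeriesOnBall_cuspFunction hh han hc).hasFPowerSeriesAt
  have h2 := (hasFPowerSeriesOnBall_cuspFunction hh han
    (fun τ ↦ hasSum_qExpansion hh hper hol hbd τ)).hasFPowerSeriesAt
  have := h1.eq_formalMultilinearSeries h2
  simpa [FormalMultilinearSeries.coeff_ofScalars] using
    congr_arg (FormalMultilinearSeries.coeff · m) this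

/-- The `q_N`-coefficients of the translate `τ ↦ u (τ + 1)`. -/
theorem qExpansion_coeff_shift {N : ℕ} [NeZero N] {u u' : ℍ → ℂ}
    (hper : Periodic (u ∘ ofComplex) N) (hol : MDiff u) (hbd : IsBoundedAtImInfty u)
    (hper' : Periodic (u' ∘ ofComplex) N) (hol' : MDiff u') (hbd' : IsBoundedAtImInfty u')
    (hshift : ∀ τ : ℍ, u' τ = u ((1 : ℝ) +ᵥ τ)) (m : ℕ) :
    (qExpansion (N : ℝ) u').coeff m = zetaN N ^ m * (qExpansion (N : ℝ) u).coeff m := by
  have hN : (0 : ℝ) < N := Nat.cast_pos.mpr (NeZero.pos N)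
  refine (coeff_unique hN hper' hol' hbd' (c := fun m ↦ zetaN N ^ m * (qExpansion (N : ℝ) u).coeff m)
    (fun τ ↦ ?_) m).symm
  have := hasSum_qExpansion hN hper hol hbd ((1 : ℝ) +ᵥ τ)
  rw [← hshift] at this
  convert this using 2 with n
  rw [qParam_vadd_one, mul_pow, smul_eq_mul, smul_eq_mul]
  ring

end Fermat.Agent.S20.H39
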