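/-
S20 / helper39: jets at `i∞` of the coset translates of a modular form on `Γ₀(N)`.
Coefficient API (`coeffN`), behaviour under `T`, vanishing jets, division by the discriminant.
-/
import Fermat.Agent.S20.Basic
import Fermat.Agent.S20.H39.QExp

set_option autoImplicit false

open Filter Function Complex ModularForm CongruenceSubgroup Matrix.SpecialLinearGroup
open UpperHalfPlane hiding I
open scoped Real Topology Manifold MatrixGroups ModularForm

noncomputable section

namespace Fermat.Agent.S20.H39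

open Fermat.Agent.S20

local notation "𝕢" => Periodic.qParam

variable {N : ℕ} [NeZero N] {k : ℤ}

lemma natCast_pos_real : (0 : ℝ) < (N : ℝ) := Nat.cast_pos.mpr (NeZero.pos N)

/-- The `r`-th coefficient in `q_N = exp (2 π i τ / N)` of a coset translate. -/
def coeffN {F : Type*} [FunLike F ℍ ℂ] [SlashInvariantFormClass F (Γ0 N) k] (f : F) (c : X N)
    (r : ℕ) : ℂ :=
  (qExpansion (N : ℝ) (cosetFun f c)).coeff r

section MF

variable {F : Type*} [FunLike F ℍ ℂ] [ModularFormClass F (Γ0 N) k] (f : F)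

omit [NeZero N] in
lemma jetVec_apply (c : X N) : jetVec f c = ∑ r ∈ Finset.range N, coeffN f c r := rfl

lemma analyticAt_cuspFunction_cosetFun (c : X N) :
    AnalyticAt ℂ (cuspFunction (N : ℝ) (cosetFun f c)) 0 :=
  analyticAt_cuspFunction_zero natCast_pos_real (cosetFun_periodic f c)
    (mdifferentiable_cosetFun f c) (isBoundedAtImInfty_cosetFun f c)

lemma limVec_eq_coeffN_zero (c : X N) : limVec f c = coeffN f c 0 :=
  (qExpansion_coeff_zero natCast_pos_real (analyticAt_cuspFunction_cosetFun f c)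
    (cosetFun_periodic f c)).symm

/-- Translation by `T⁻¹` on cosets multiplies the `r`-th coefficient by `ζ_N ^ r`. -/
lemma coeffN_T_inv (c : X N) (r : ℕ) :
    coeffN f (ModularGroup.T⁻¹ • c) r = zetaN N ^ r * coeffN f c r :=
  qExpansion_coeff_shift (cosetFun_periodic f c) (mdifferentiable_cosetFun f c)
    (isBoundedAtImInfty_cosetFun f c) (cosetFun_periodic f _) (mdifferentiable_cosetFun f _)
    (isBoundedAtImInfty_cosetFun f _) (fun τ ↦ (cosetFun_vadd_one f c τ).symm) r

lemma coeffN_T_inv_pow (c : X N) (r m : ℕ) :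
    coeffN f ((ModularGroup.T⁻¹) ^ m • c) r = (zetaN N ^ r) ^ m * coeffN f c r := by
  induction m with
  | zero => simp
  | succ m ih => rw [pow_succ', mul_smul, coeffN_T_inv, ih, pow_succ]; ring

/-- Fourier inversion along a `T`-orbit: each of the first `N` coefficients is an average of
jets. -/
lemma sum_jetVec_T_inv_pow (c : X N) {r : ℕ} (hr : r < N) :
    ∑ m ∈ Finset.range N, ((zetaN N ^ r) ^ m)⁻¹ * jetVec f ((ModularGroup.T⁻¹) ^ m • c) =
      N * coeffN f c r := by
  simp only [jetVec_apply, coeffN_T_inv_pow, Finset.mul_sum]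
  rw [Finset.sum_comm]
  have : ∀ n ∈ Finset.range N, ∑ m ∈ Finset.range N,
      ((zetaN N ^ r) ^ m)⁻¹ * ((zetaN N ^ n) ^ m * coeffN f c n) =
      (if r = n then (N : ℂ) else 0) * coeffN f c n := by
    intro n hn
    rw [← sum_zetaN_pow N (Finset.mem_range.mp hn) hr, Finset.sum_mul]
    refine Finset.sum_congr rfl fun m _ ↦ by ring
  rw [Finset.sum_congr rfl this]
  simp [Finset.mem_range.mpr hr]

lemma coeffN_eq_zero_of_jetVec_eq_zero (hf : jetVec f = 0) (c : X N) {r : ℕ} (hr : r < N) :
    coeffN f c r = 0 := by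
  have h := sum_jetVec_T_inv_pow f c hr
  simp only [hf, Pi.zero_apply, mul_zero, Finset.sum_const_zero] at h
  have hN : (N : ℂ) ≠ 0 := Nat.cast_ne_zero.mpr (NeZero.ne N)
  exact (mul_eq_zero.mp h.symm).resolve_left hN

lemma jetVec_eq_zero_iff : jetVec f = 0 ↔ ∀ c : X N, ∀ r < N, coeffN f c r = 0 := by
  refine ⟨fun h c r hr ↦ coeffN_eq_zero_of_jetVec_eq_zero f h c hr, fun h ↦ ?_⟩
  funext c
  rw [jetVec_apply]
  exact Finset.sum_eq_zero fun r hr ↦ h c r (Finset.mem_range.mp hr)

/-- The `T`-average of the jet is the cusp value. -/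
lemma sum_jetVec_T_inv_pow_zero (c : X N) :
    ∑ m ∈ Finset.range N, jetVec f ((ModularGroup.T⁻¹) ^ m • c) = N * limVec f c := by
  have h := sum_jetVec_T_inv_pow f c (NeZero.pos N)
  simpa [limVec_eq_coeffN_zero] using h

/-- If the jet of `f` vanishes, every coset translate of `f` is `O(Δ)` at `i∞`. -/
lemma cosetFun_isBigO_discriminant (hf : jetVec f = 0) (c : X N) :
    cosetFun f c =O[atImInfty] discriminant := by
  have h := expansion_bigO natCast_pos_real (cosetFun_periodic f c) (mdifferentiable_cosetFun f c)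
    (isBoundedAtImInfty_cosetFun f c) N
  have h0 : ∀ τ : ℍ, ∑ n ∈ Finset.range N,
      (qExpansion (N : ℝ) (cosetFun f c)).coeff n * 𝕢 (N : ℝ) τ ^ n = 0 := fun τ ↦
    Finset.sum_eq_zero fun n hn ↦ by
      have := coeffN_eq_zero_of_jetVec_eq_zero f hf c (Finset.mem_range.mp hn)
      rw [coeffN] at this
      rw [this, zero_mul]
  simp only [h0, sub_zero] at h
  have h1 : (fun τ : ℍ ↦ ‖𝕢 (N : ℝ) τ‖ ^ N) = fun τ : ℍ ↦ Real.exp (-2 * π * τ.im) := by
    funext τ
    have hN : (N : ℝ) ≠ 0 := (natCast_pos_real (N := N)).ne'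
    rw [Periodic.norm_qParam, ← Real.exp_nat_mul]
    congr 1
    rw [UpperHalfPlane.coe_im]
    field_simp
  rw [h1] at h
  exact h.trans exp_isBigO_discriminant

/-- Translation by `T` on cosets divides the `r`-th coefficient by `ζ_N ^ r`. -/
lemma coeffN_T (c : X N) (r : ℕ) :
    coeffN f (ModularGroup.T • c) r = (zetaN N ^ r)⁻¹ * coeffN f c r := by
  have h := coeffN_T_inv f (ModularGroup.T • c) r
  rw [inv_smul_smul] at h
  rw [h, ← mul_assoc, inv_mul_cancel₀ (pow_ne_zero r (zetaN_ne_zero N)), one_mul]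

lemma coeffN_T_pow (c : X N) (r m : ℕ) :
    coeffN f (ModularGroup.T ^ m • c) r = ((zetaN N ^ r) ^ m)⁻¹ * coeffN f c r := by
  induction m with
  | zero => simp
  | succ m ih => rw [pow_succ', mul_smul, coeffN_T, ih, pow_succ, mul_inv]; ring

/-- **J2.** Summing the jet over a `T`-orbit gives `N` times the cusp value. -/
theorem sum_jetVec_T_pow (c : X N) :
    ∑ m ∈ Finset.range N, jetVec f (ModularGroup.T ^ m • c) = N * limVec f c := by
  simp only [jetVec_apply, coeffN_T_pow]
  rw [Finset.sum_comm]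
  have : ∀ n ∈ Finset.range N, ∑ m ∈ Finset.range N,
      ((zetaN N ^ n) ^ m)⁻¹ * coeffN f c n = (if n = 0 then (N : ℂ) else 0) * coeffN f c n := by
    intro n hn
    rw [← sum_zetaN_pow N (NeZero.pos N) (Finset.mem_range.mp hn), Finset.sum_mul]
    refine Finset.sum_congr rfl fun m _ ↦ by simp
  rw [Finset.sum_congr rfl this]
  simp [Finset.mem_range.mpr (NeZero.pos N), limVec_eq_coeffN_zero]

end MF

omit [NeZero N] in
/-- Slash of the quotient by the discriminant. -/
lemma div_discriminant_slash (f : ModularForm (Γ0 N) k) (γ : SL(2, ℤ)) :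
    (fun τ ↦ f τ / discriminant τ) ∣[k - 12] γ =
      fun τ ↦ cosetFun f (QuotientGroup.mk γ⁻¹ : X N) τ / discriminant τ := by
  have hγ : (γ : GL (Fin 2) ℝ) ∈ 𝒮ℒ := ⟨γ, rfl⟩
  have h1 : (⇑CuspForm.discriminant : ℍ → ℂ) ∣[(12 : ℤ)] γ = ⇑CuspForm.discriminant := by
    rw [SL_slash, SlashInvariantForm.slash_action_eqn _ _ hγ]
  change (⇑f / ⇑CuspForm.discriminant) ∣[k - 12] γ = _
  rw [div_slash_SL2, h1, cosetFun_mk, inv_inv]
  rfl

/-- Division by the discriminant of a form with vanishing jet. -/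
def divDisc (f : ModularForm (Γ0 N) k) (hf : jetVec f = 0) : ModularForm (Γ0 N) (k - 12) where
  toFun τ := f τ / discriminant τ
  slash_action_eq' := by
    rintro _ ⟨γ, hγ, rfl⟩
    have h := div_discriminant_slash f γ
    rw [SL_slash] at h
    rw [show (Matrix.SpecialLinearGroup.mapGL ℝ) γ = (γ : GL (Fin 2) ℝ) from rfl, h]
    funext τ
    have : (QuotientGroup.mk γ⁻¹ : X N) = QuotientGroup.mk 1 :=
      (QuotientGroup.eq.mpr (by simpa using hγ))
    rw [this, cosetFun_one]
  holo' := (ModularFormClass.holo f).div CuspForm.discriminant.holo' discriminant_ne_zero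
  bdd_at_cusps' {c} hc := by
    rw [Subgroup.IsArithmetic.isCusp_iff_isCusp_SL2Z] at hc
    rw [OnePoint.isBoundedAt_iff_forall_SL2Z hc]
    intro γ _
    rw [div_discriminant_slash f γ, IsBoundedAtImInfty, BoundedAtFilter]
    exact (Asymptotics.div_isBoundedUnder_of_isBigO (cosetFun_isBigO_discriminant f hf _)).isBigO_one ℝ

lemma divDisc_apply (f : ModularForm (Γ0 N) k) (hf : jetVec f = 0) (τ : ℍ) :
    divDisc f hf τ = f τ / discriminant τ := rfl

lemma cosetFun_divDisc (f : ModularForm (Γ0 N) k) (hf : jetVec f = 0) (c : X N) (τ : ℍ) :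
    cosetFun (divDisc f hf) c τ = cosetFun f c τ / discriminant τ := by
  induction c using QuotientGroup.induction_on with
  | H g =>
    have h := div_discriminant_slash f g⁻¹
    rw [inv_inv] at h
    rw [cosetFun_mk]
    exact congrFun h τ

/-- **J1.** A form on `Γ₀(N)` with vanishing jet is divisible by the discriminant. -/
theorem exists_div_discriminant (f : ModularForm (Γ0 N) k) (hf : jetVec f = 0) :
    ∃ g : ModularForm (Γ0 N) (k - 12),
      ∀ (c : X N) (τ : ℍ), cosetFun f c τ = discriminant τ * cosetFun g c τ :=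
  ⟨divDisc f hf, fun c τ ↦ by
    rw [cosetFun_divDisc, mul_div_cancel₀ _ (discriminant_ne_zero τ)]⟩

/-! ### Linearity of the jet -/

lemma coeffN_add (f g : ModularForm (Γ0 N) k) (c : X N) (r : ℕ) :
    coeffN (f + g) c r = coeffN f c r + coeffN g c r := by
  rw [coeffN, cosetFun_add, qExpansion_add (analyticAt_cuspFunction_cosetFun f c)
    (analyticAt_cuspFunction_cosetFun g c)]
  rfl

lemma coeffN_smul (a : ℂ) (f : ModularForm (Γ0 N) k) (c : X N) (r : ℕ) :
    coeffN (a • f) c r = a * coeffN f c r := by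
  rw [coeffN, cosetFun_smul, qExpansion_smul (analyticAt_cuspFunction_cosetFun f c)]
  rfl

theorem jetVec_add (f g : ModularForm (Γ0 N) k) : jetVec (f + g) = jetVec f + jetVec g := by
  funext c
  simp only [jetVec_apply, Pi.add_apply, coeffN_add, Finset.sum_add_distrib]

theorem jetVec_smul (a : ℂ) (f : ModularForm (Γ0 N) k) : jetVec (a • f) = a • jetVec f := by
  funext c
  simp only [jetVec_apply, Pi.smul_apply, coeffN_smul, Finset.mul_sum, smul_eq_mul]

/-- The jet as a linear map. -/
def jetVecₗ (N : ℕ) [NeZero N] (k : ℤ) : ModularForm (Γ0 N) k →ₗ[ℂ] (X N → ℂ) where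
  toFun f := jetVec f
  map_add' := jetVec_add
  map_smul' := jetVec_smul

@[simp] lemma jetVecₗ_apply (f : ModularForm (Γ0 N) k) : jetVecₗ N k f = jetVec f := rfl

theorem jetVec_sum {ι : Type*} (s : Finset ι) (f : ι → ModularForm (Γ0 N) k) :
    jetVec (∑ i ∈ s, f i) = ∑ i ∈ s, jetVec (f i) := by
  exact map_sum (jetVecₗ N k) f s

/-! ### Multiplication by a level-one form -/

lemma natCast_mem_strictPeriods_SL (N : ℕ) : (N : ℝ) ∈ (𝒮ℒ).strictPeriods := by
  have h := AddSubgroup.nsmul_mem _ one_mem_strictPeriods_SL N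
  simpa using h

section LevelOne

variable {m : ℤ} (r : ModularForm 𝒮ℒ m)

omit [NeZero N] in
lemma levelOne_periodic : Periodic ((r : ℍ → ℂ) ∘ ofComplex) (N : ℝ) :=
  SlashInvariantFormClass.periodic_comp_ofComplex r (natCast_mem_strictPeriods_SL N)

lemma levelOne_analyticAt : AnalyticAt ℂ (cuspFunction (N : ℝ) (r : ℍ → ℂ)) 0 :=
  ModularFormClass.analyticAt_cuspFunction_zero r natCast_pos_real (natCast_mem_strictPeriods_SL N)

/-- The `q_N`-coefficients of a level-one form vanish in degrees `0 < i < N`. -/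
lemma levelOne_coeff_eq_zero {i : ℕ} (hi0 : 0 < i) (hiN : i < N) :
    (qExpansion (N : ℝ) (r : ℍ → ℂ)).coeff i = 0 := by
  have hper := levelOne_periodic (N := N) r
  have hol : MDiff (r : ℍ → ℂ) := ModularFormClass.holo r
  have hbd : IsBoundedAtImInfty (r : ℍ → ℂ) := ModularFormClass.bdd_at_infty r
  have hshift : ∀ τ : ℍ, r τ = r ((1 : ℝ) +ᵥ τ) := fun τ ↦
    (SlashInvariantForm.vAdd_apply_of_mem_strictPeriods r τ one_mem_strictPeriods_SL).symm
  have h := qExpansion_coeff_shift hper hol hbd hper hol hbd hshift i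
  have h1 : (1 - zetaN N ^ i) * (qExpansion (N : ℝ) (r : ℍ → ℂ)).coeff i = 0 := by
    rw [sub_mul, one_mul, ← h, sub_self]
  exact (mul_eq_zero.mp h1).resolve_left (sub_ne_zero.mpr (zetaN_pow_ne_one N hi0 hiN).symm)

lemma levelOne_coeff_zero :
    (qExpansion (N : ℝ) (r : ℍ → ℂ)).coeff 0 = valueAtInfty (r : ℍ → ℂ) :=
  qExpansion_coeff_zero natCast_pos_real (levelOne_analyticAt r) (levelOne_periodic r)

/-- **J0'.** Multiplying by a level-one form multiplies the jet by its value at `i∞`. -/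
theorem jetVec_levelOne_mul {k' : ℤ} (f : ModularForm (Γ0 N) k) (h : ModularForm (Γ0 N) k')
    (hh : ∀ (c : X N) (τ : ℍ), cosetFun h c τ = r τ * cosetFun f c τ) :
    jetVec h = valueAtInfty (r : ℍ → ℂ) • jetVec f := by
  funext c
  simp only [jetVec_apply, Pi.smul_apply, smul_eq_mul, Finset.mul_sum]
  refine Finset.sum_congr rfl fun n hn ↦ ?_
  have hn' := Finset.mem_range.mp hn
  have hfun : cosetFun h c = (r : ℍ → ℂ) * cosetFun f c := funext fun τ ↦ hh c τ
  rw [coeffN, hfun, qExpansion_mul (levelOne_analyticAt r) (analyticAt_cuspFunction_cosetFun f c),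
    PowerSeries.coeff_mul]
  rw [Finset.sum_eq_single (0, n)]
  · rw [levelOne_coeff_zero]; rfl
  · rintro ⟨i, j⟩ hij hne
    have hsum : i + j = n := by simpa using hij
    have hi0 : 0 < i := by
      rcases Nat.eq_zero_or_pos i with h0 | h0
      · exfalso; apply hne; subst h0; simp at hsum; simp [hsum]
      · exact h0
    rw [levelOne_coeff_eq_zero r hi0 (by omega), zero_mul]
  · intro h0; simp at h0

end LevelOne

end Fermat.Agent.S20.H39
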